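/-
MLT / Fr3 (helper9): fork of `Lib/Ihara/Glue/Main.lean` for `p = 3` (generated by a rename
script from the frozen file: only the declarations depending on `IhfLevel` / `IsUnit 3` are repeated, with
the prefix `ih`/`Ih` replaced by `jh`/`Jh`; the level hypothesis is `JhfLevel`, see `Fr3/Fr/Three.lean`).
-/
import Mathlib
import Fermat.Agent.Lib.Ihara.Glue.Hom
import Fermat.Agent.Lib.Ihara.Glue.Theta
import Fermat.Agent.Lib.Ihara.Glue.Nil
import Fermat.Agent.Lib.Ihara.Hm.PartT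
import Fermat.Agent.Lib.MLT.Fr3.Hm.PartT
import Fermat.Agent.Lib.Ihara.Tw.TransferInst
import Fermat.Agent.Lib.MLT.Fr3.Fr.Control
import Fermat.Agent.Lib.MLT.Fr3.Fr.Cyc
import Fermat.Agent.Lib.MLT.Fr3.Fr.Defs
import Fermat.Agent.Lib.MLT.Fr3.Fr.Free
import Fermat.Agent.Lib.MLT.Fr3.Fr.Ind
import Fermat.Agent.Lib.MLT.Fr3.Fr.Main
import Fermat.Agent.Lib.MLT.Fr3.Fr.Ops
import Fermat.Agent.Lib.MLT.Fr3.Fr.Red
import Fermat.Agent.Lib.MLT.Fr3.Fr.ToolB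
import Fermat.Agent.Lib.MLT.Fr3.Hm.Dia
import Fermat.Agent.Lib.MLT.Fr3.Hm.Part
import Fermat.Agent.Lib.Ihara.Glue.Main

set_option autoImplicit false
set_option linter.unusedSectionVars false
set_option linter.unusedVariables false
set_option linter.style.haveILetI false

open IsLocalRing

namespace Fermat.Agent.Ihara

open Matrix MatrixGroups CongruenceSubgroup ModularCurve ModularCurve.Period
open Fermat.Agent.DS Fermat.Agent.T1 Fermat.Agent.T1G Fermat.Agent.T2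

section PartNil

set_option maxSynthPendingDepth 3

variable (O : Type) [CommRing O] [IsDomain O] [IsDiscreteValuationRing O] [CharZero O]
  [IsAdicComplete (IsLocalRing.maximalIdeal O) O] (M : ℕ) [NeZero M] (hM : 6 ≤ M)
  (H : Subgroup (ZMod M)ˣ) (Ps : Set ℕ) (θ₀ : ℕ → O)

end PartNil

section Main

variable (O : Type) [CommRing O] [IsDomain O] [IsDiscreteValuationRing O] [CharZero O]
  [IsAdicComplete (IsLocalRing.maximalIdeal O) O] (M : ℕ) [NeZero M] (hM : 6 ≤ M)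
  (H : Subgroup (ZMod M)ˣ) (Ps : Set ℕ) (θ₀ : ℕ → O)

variable {p : ℕ} (hL : JhfLevel p M H) (hpO : (p : O) ∈ IsLocalRing.maximalIdeal O)

include hL in
/-- the diamond operators have `p`-power order on the `θ₀`-part -/
theorem jhk_partTDia_pow (δ : (ZMod M)ˣ ⧸ H) :
    ∃ m : ℕ, ihmPartTDia O M hM H Ps θ₀ δ ^ (p ^ m) = 1 := by
  obtain ⟨d, rfl⟩ := QuotientGroup.mk_surjective δ
  obtain ⟨m, hm⟩ := hL.pgroup d
  refine ⟨m, ?_⟩
  rw [← map_pow, ← QuotientGroup.mk_pow, (QuotientGroup.eq_one_iff _).mpr hm, map_one]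

include hL hpO in
/-- **the Hecke algebra of level `Γ₀(N')` acts on the stable quotients of the `θ₀`-part** -/
theorem jhk_exists_hom {N' : ℕ} [NeZero N'] (hMN' : M ∣ N') {S : Set ℕ}
    (hS : ∀ l : ℕ, l.Prime → l ∣ N' → l ∈ S) (hPs : ∀ l : ℕ, l.Prime → l ∉ S → l ∈ Ps)
    (z : ℕ → (ZMod M)ˣ)
    (a₀ : CuspForm.heckeAlgebra N' 2 S →+* Module.End O (IhfH O O M H))
    (ha₀ : ∀ (l : ℕ) (hl : l.Prime) (hlN' : ¬ l ∣ N') (hlS : l ∉ S),
      a₀ (CuspForm.heckeAlgebra.T hl hlN' hlS) = ihtrOp H O O z l)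
    {Y : Type*} [AddCommGroup Y] [Module O Y] [Nontrivial Y]
    (π : IhmPartT O M H Ps θ₀ →ₗ[O] Y) (hπ : Function.Surjective π)
    (hπop : ∀ (ℓ : ℕ) (x : IhmPartT O M H Ps θ₀), π x = 0 →
      π (ihmPartTOp O M hM H Ps θ₀ ℓ x) = 0)
    (hπdia : ∀ (δ : (ZMod M)ˣ ⧸ H) (x : IhmPartT O M H Ps θ₀), π x = 0 →
      π (ihmPartTDia O M hM H Ps θ₀ δ x) = 0) :
    ∃ (a : CuspForm.heckeAlgebra N' 2 S →+* Module.End O Y)
      (θ' : CuspForm.heckeAlgebra N' 2 S →+* ResidueField O),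
      (∀ (l : ℕ) (hl : l.Prime) (hlN' : ¬ l ∣ N') (hlS : l ∉ S) (x : IhmPartT O M H Ps θ₀),
        a (CuspForm.heckeAlgebra.T hl hlN' hlS) (π x) =
          π (ihmPartTOp O M hM H Ps θ₀ l
            (ihmPartTDia O M hM H Ps θ₀ ((z l : (ZMod M)ˣ) : (ZMod M)ˣ ⧸ H) x))) ∧
      (∀ (l : ℕ) (hl : l.Prime) (hlN' : ¬ l ∣ N') (hlS : l ∉ S),
        θ' (CuspForm.heckeAlgebra.T hl hlN' hlS) = residue O (θ₀ l)) ∧
      ihdPart O a θ' = ⊤ ∧
      (∀ (f : Module.End O (IhmPartT O M H Ps θ₀)) (f' : Module.End O Y),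
        (∀ x, f' (π x) = π (f x)) →
        (∀ ℓ, Commute f (ihmPartTOp O M hM H Ps θ₀ ℓ)) →
        (∀ δ, Commute f (ihmPartTDia O M hM H Ps θ₀ δ)) →
        ∀ t, Commute f' (a t)) := by
  have hp : p.Prime := hL.prime
  have hlM : ∀ l : ℕ, l.Prime → l ∉ S → ¬ l ∣ M := fun l hl hlS h =>
    hlS (hS l hl (h.trans hMN'))
  haveI : Module.Finite O Y := Module.Finite.of_surjective π hπ
  -- step 1: restriction to the `θ₀`-part
  have hstab₀ : ∀ t, ∀ x ∈ ihmPart O M H Ps θ₀, a₀ t x ∈ ihmPart O M H Ps θ₀ := by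
    refine ihk_stable_of_gen a₀ hS _ ?_
    intro l hl hlN' hlS x hx
    rw [ha₀ l hl hlN' hlS, ihk_ihtrOp_eq O M H z hl (hlM l hl hlS), Module.End.mul_apply]
    exact ihmOp_mem_part O M hM H Ps θ₀ l (ihmDia_mem_part O M hM H Ps θ₀ (z l) hx)
  obtain ⟨a₁, ha₁⟩ := ihk_hom_incl a₀ (ihmPartTIncl O M H Ps θ₀)
    (ihmPartTIncl_injective O M H Ps θ₀) (fun t x => by
      rw [ihmPartTIncl_range]
      exact hstab₀ t _ (ihmPartTIncl_mem O M H Ps θ₀ x))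
  have ha₁T : ∀ (l : ℕ) (hl : l.Prime) (hlN' : ¬ l ∣ N') (hlS : l ∉ S),
      a₁ (CuspForm.heckeAlgebra.T hl hlN' hlS) =
        ihmPartTOp O M hM H Ps θ₀ l *
          ihmPartTDia O M hM H Ps θ₀ ((z l : (ZMod M)ˣ) : (ZMod M)ˣ ⧸ H) := by
    intro l hl hlN' hlS
    refine LinearMap.ext fun x => ihmPartTIncl_injective O M H Ps θ₀ ?_
    rw [ha₁, ha₀ l hl hlN' hlS, ihk_ihtrOp_eq O M H z hl (hlM l hl hlS), Module.End.mul_apply,
      Module.End.mul_apply, ihmPartTIncl_op, ihmPartTIncl_dia]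
  -- step 2: the quotient
  have hstab₁ : ∀ t, ∀ x ∈ LinearMap.ker π, a₁ t x ∈ LinearMap.ker π := by
    refine ihk_stable_of_gen a₁ hS _ ?_
    intro l hl hlN' hlS x hx
    rw [LinearMap.mem_ker] at hx ⊢
    rw [ha₁T l hl hlN' hlS, Module.End.mul_apply]
    exact hπop l _ (hπdia _ x hx)
  obtain ⟨a, ha⟩ := ihk_hom_surj a₁ π hπ (fun t x hx => hstab₁ t x hx)
  have haT : ∀ (l : ℕ) (hl : l.Prime) (hlN' : ¬ l ∣ N') (hlS : l ∉ S)
      (x : IhmPartT O M H Ps θ₀),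
      a (CuspForm.heckeAlgebra.T hl hlN' hlS) (π x) =
        π (ihmPartTOp O M hM H Ps θ₀ l
          (ihmPartTDia O M hM H Ps θ₀ ((z l : (ZMod M)ˣ) : (ZMod M)ˣ ⧸ H) x)) := by
    intro l hl hlN' hlS x
    rw [ha, ha₁T l hl hlN' hlS]
    rfl
  -- step 3: residual nilpotency
  have hnil : ∀ (l : ℕ) (hl : l.Prime) (hlN' : ¬ l ∣ N') (hlS : l ∉ S), ∃ k : ℕ,
      ∀ x : Y,
      ((a (CuspForm.heckeAlgebra.T hl hlN' hlS) - algebraMap O (Module.End O Y) (θ₀ l)) ^ k) x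
        ∈ maximalIdeal O • (⊤ : Submodule O Y) := by
    intro l hl hlN' hlS
    obtain ⟨m, hm⟩ := jhk_partTDia_pow O M hM H Ps θ₀ hL ((z l : (ZMod M)ˣ) : (ZMod M)ˣ ⧸ H)
    have hc : Commute (ihmPartTOp O M hM H Ps θ₀ l)
        (ihmPartTDia O M hM H Ps θ₀ ((z l : (ZMod M)ˣ) : (ZMod M)ˣ ⧸ H)) :=
      ihmPartTOp_commute_dia O M hM H Ps θ₀ l _
    have h1 := ihk_nil_twist (I := maximalIdeal O) hp hpO (ihmPartTOp O M hM H Ps θ₀ l)
      (ihmPartTDia O M hM H Ps θ₀ ((z l : (ZMod M)ˣ) : (ZMod M)ˣ ⧸ H)) (θ₀ l) hc m hm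
      (ihk_nil_partTOp O M hM H Ps θ₀ (hPs l hl hlS))
    exact ihk_nil_surj π hπ _ _ (fun x => by
      rw [LinearMap.sub_apply, haT l hl hlN' hlS, Module.algebraMap_end_apply,
        LinearMap.sub_apply, Module.algebraMap_end_apply, Module.End.mul_apply, map_sub,
        map_smul]) h1
  obtain ⟨θ', hθ', hpart⟩ := ihk_exists_theta O a hS θ₀ hnil
  refine ⟨a, θ', haT, hθ', hpart, ?_⟩
  -- step 4: the commutant
  intro f f' hff' hfop hfdia t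
  refine ihk_commute_of_gen a hS _ ?_ t
  intro l hl hlN' hlS
  refine LinearMap.ext fun y => ?_
  obtain ⟨x, rfl⟩ := hπ y
  rw [Module.End.mul_apply, Module.End.mul_apply, haT, hff', hff', haT]
  congr 1
  have h1 := LinearMap.congr_fun (hfop l).eq
    (ihmPartTDia O M hM H Ps θ₀ ((z l : (ZMod M)ˣ) : (ZMod M)ˣ ⧸ H) x)
  have h2 := LinearMap.congr_fun (hfdia ((z l : (ZMod M)ˣ) : (ZMod M)ˣ ⧸ H)).eq x
  rw [Module.End.mul_apply, Module.End.mul_apply] at h1 h2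
  rw [h1, h2]

end Main

end Fermat.Agent.Ihara
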